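/-
Programme MAZ (S15), row 676 A3-UNIFORM part 2 (design helper72, report 1117), step (4) [FINAL], ABSTRACT
HALF (helper42): **an injective operator anticommuting with an involution `c` maps `H⁻` into `H⁺`**, hence
`rank H⁻ ≤ rank H⁺`, hence (helper88's `A3Conj88`) `|V| ≤ |V^g|²` for every quotient `π : H ↠ V` with kernel
`r^k H` on which `g` acts through `c`.

To be applied to `H := H_m` (`A3-LATTICE`), `c := rhoT c`, `J := tateEquivJ⁻¹ ∘ J_swap ∘ tateEquivJ`
(`A3-SWAP`: `Swap.exists_swap`, `KUM-EQ`: `tateEquivJ (rhoT c x) = - ι (tateEquivJ x)`).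
-/
import Fermat.Agent.MAZ.A3Conj88.Inv

set_option autoImplicit false

noncomputable section

namespace Fermat.Agent.MAZ.A3Conj72.AntiComm42

open Fermat.Agent.MAZ.A3Conj88 Fermat.Agent.MAZ.SelCoh42

section Rank

variable {R : Type*} [CommRing R] [IsDomain R] [IsPrincipalIdealRing R]
variable {H : Type*} [AddCommGroup H] [Module R H] [Module.Free R H] [Module.Finite R H]

/-- An operator anticommuting with `c` maps `H⁻` into `H⁺`. -/
theorem mem_plusPart_of_anticomm (c J : H →ₗ[R] H) (hanti : ∀ x, J (c x) = - c (J x)) {x : H}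
    (hx : x ∈ minusPart c) : J x ∈ plusPart c := by
  rw [mem_minusPart] at hx
  rw [mem_plusPart]
  have h := hanti x
  rw [hx, map_neg, neg_inj] at h
  exact h.symm

/-- `rank H⁻ ≤ rank H⁺` from an injective operator anticommuting with `c`. -/
theorem finrank_minusPart_le_plusPart (c J : H →ₗ[R] H) (hJ : Function.Injective J)
    (hanti : ∀ x, J (c x) = - c (J x)) :
    Module.finrank R (minusPart c) ≤ Module.finrank R (plusPart c) := by
  let f : minusPart c →ₗ[R] plusPart c :=
    (J.comp (minusPart c).subtype).codRestrict (plusPart c)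
      (fun x => mem_plusPart_of_anticomm c J hanti x.2)
  have hf : Function.Injective f := by
    intro x y hxy
    have h : J x.1 = J y.1 := congrArg Subtype.val hxy
    exact Subtype.ext (hJ h)
  exact LinearMap.finrank_le_finrank_of_injective hf

/-- The same when `J` is only defined on a larger module `H'` containing `H` as a stable submodule:
restriction of an injective anticommuting operator. -/
theorem finrank_minusPart_le_plusPart_of_restrict {H' : Type*} [AddCommGroup H'] [Module R H']
    (L : Submodule R H') [Module.Free R L] [Module.Finite R L]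
    (c J : H' →ₗ[R] H') (hcL : ∀ x ∈ L, c x ∈ L) (hJL : ∀ x ∈ L, J x ∈ L)
    (hJ : Function.Injective J) (hanti : ∀ x, J (c x) = - c (J x)) :
    Module.finrank R (minusPart (c.restrict hcL)) ≤ Module.finrank R (plusPart (c.restrict hcL)) := by
  refine finrank_minusPart_le_plusPart (c.restrict hcL) (J.restrict hJL) ?_ ?_
  · intro x y hxy
    have h : J x.1 = J y.1 := congrArg Subtype.val hxy
    exact Subtype.ext (hJ h)
  · intro x
    apply Subtype.ext
    exact hanti x.1

end Rank

section Padic

universe u v

variable {Γ : Type v} [Group Γ] {V : Type u} [AddCommGroup V] [DistribMulAction Γ V]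
variable {r : ℕ} [hr : Fact r.Prime]
variable {H : Type*} [AddCommGroup H] [Module ℤ_[r] H] [Module.Free ℤ_[r] H]
  [Module.Finite ℤ_[r] H]

/-- **(A3), final abstract form**: `H` a `ℤ_r`-lattice with an involution `c` and an injective operator `J`
anticommuting with `c`; `π : H ↠ V` with kernel `r^k H`, `g` acting on `V` through `c`.  Then
`|V| ≤ |V^{⟨g⟩}|²`. -/
theorem card_le_card_Inv_zpowers_sq_of_anticomm (c J : H →ₗ[ℤ_[r]] H) (hc : ∀ x, c (c x) = x)
    (hJ : Function.Injective J) (hanti : ∀ x, J (c x) = - c (J x)) (k : ℕ)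
    (π : H →+ V) (hπ : Function.Surjective π)
    (hker : ∀ x : H, π x = 0 ↔ ∃ y : H, x = ((r : ℤ_[r]) ^ k) • y)
    (g : Γ) (hg : ∀ x : H, g • π x = π (c x)) :
    Nat.card V ≤ Nat.card (Inv (Subgroup.zpowers g) V) ^ 2 :=
  card_le_card_Inv_zpowers_sq_padic' c hc (finrank_minusPart_le_plusPart c J hJ hanti) k π hπ hker g hg

end Padic

end Fermat.Agent.MAZ.A3Conj72.AntiComm42
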