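/-
Programme MAZ, row 715 A3-CONJ-AN (helper22; sub-brick of row 676 A3-UNIFORM part 2, owner helper72).

Complex conjugation on functions on the upper half plane: `h ↦ conj (h (-conj z))`.

* `negConj : ℍ → ℍ` (`z ↦ -conj z`), `conjFun g := fun z => conj (g (negConj z))`;
* `HasQExp.conj` : if `f` is the convergent `q`-expansion of `g` then `coeffMap conj f` is the
  `q`-expansion of `conjFun g`;
* `conjHol : HolH →+* HolH` (`coe = conjFun`), semilinear on constants, intertwining
  `compSLHom γ` and `compSLHom (jConjSL γ)`;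
* `conjMer : MerH →+* MerH`, `conjMer_slMer`;
* MAIN `realMer_conj` : `realMer N (c • f) = conjMer (realMer N f)` for the coefficientwise complex
  conjugation `c` on `F_ℂ = FC N`.
-/
import Mathlib
import Fermat.Agent.ES.HEQ.QExpMer19
import Fermat.Prelude.Def_GaloisRep_ComplexConjugation
import Fermat.Prelude.Def_ModularCurve_PeriodHomPair
import Fermat.Prelude.Def_ModularCurve_ArithmeticGalois
import Fermat.Prelude.Def_ModularCurve_X0ModL

set_option autoImplicit false
set_option linter.unusedSectionVars false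
set_option linter.style.haveILetI false

open ModularCurve HahnSeries UpperHalfPlane
open scoped Topology Manifold MatrixGroups ComplexConjugate

noncomputable section

namespace Fermat.Agent.MAZ.A3Conj72

open Fermat.Agent.X0 Fermat.Agent.X0.Analytic Fermat.Agent.X0.SurjPoint Fermat.Agent.X0.JQExp
open Fermat.Agent.ES.KUM Fermat.Agent.ES.HEQ.QExpMer19 ModularCurve.Period

/-! ### `z ↦ -conj z` on the upper half plane -/

/-- `z ↦ -conj z`. -/
def negConj (z : ℍ) : ℍ := ⟨-conj (z : ℂ), by
  have h : (-conj (z : ℂ)).im = (z : ℂ).im := by simp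
  rw [h]
  exact z.im_pos⟩

@[simp] theorem coe_negConj (z : ℍ) : (negConj z : ℂ) = -conj (z : ℂ) := rfl

@[simp] theorem negConj_negConj (z : ℍ) : negConj (negConj z) = z := by
  apply UpperHalfPlane.ext
  simp

/-- `g ↦ conj ∘ g ∘ (z ↦ -conj z)`. -/
def conjFun (g : ℍ → ℂ) : ℍ → ℂ := fun z => conj (g (negConj z))

@[simp] theorem conjFun_apply (g : ℍ → ℂ) (z : ℍ) : conjFun g z = conj (g (negConj z)) := rfl

theorem conjFun_conjFun (g : ℍ → ℂ) : conjFun (conjFun g) = g := by
  funext z
  simp

theorem qH_negConj (z : ℍ) : qH (negConj z) = conj (qH z) := by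
  unfold qH Function.Periodic.qParam
  rw [← Complex.exp_conj]
  congr 1
  simp only [coe_negConj, map_div₀, map_mul, map_ofNat, Complex.conj_ofReal, Complex.conj_I]
  ring

/-! ### conjugation on the unit disc -/

theorem diffOn_conjDisc {G : ℂ → ℂ} (hG : DifferentiableOn ℂ G (Metric.ball 0 1)) :
    DifferentiableOn ℂ (fun q => conj (G (conj q))) (Metric.ball 0 1) := by
  intro q hq
  have hq' : conj q ∈ Metric.ball (0 : ℂ) 1 := by
    rw [mem_ball_zero_iff] at hq ⊢
    rwa [Complex.norm_conj]
  have h1 : DifferentiableAt ℂ G (conj q) :=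
    hG.differentiableAt (Metric.isOpen_ball.mem_nhds hq')
  have h2 := h1.conj_conj
  rw [Complex.conj_conj] at h2
  exact h2.differentiableWithinAt

theorem tps_conjDisc {G : ℂ → ℂ} (hG : DifferentiableOn ℂ G (Metric.ball 0 1)) :
    tps (fun q => conj (G (conj q))) = (tps G).map (starRingEnd ℂ) := by
  have h := tps_eq_of_hasSum (G := fun q => conj (G (conj q)))
    (c := fun n => conj (PowerSeries.coeff n (tps G))) (fun q hq => by
      have hq' : ‖conj q‖ < 1 := by rwa [Complex.norm_conj]
      have h1 := hasSum_tps hG hq'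
      have h2 := Complex.hasSum_conj'.mpr h1
      convert h2 using 2
      simp)
  rw [h]
  ext n
  simp

theorem coeffMap_lau (φ : ℂ →+* ℂ) (m : ℕ) (p : PowerSeries ℂ) :
    coeffMap φ (lau m p) = lau m (p.map φ) := by
  unfold lau
  rw [map_mul, coeffMap_single, map_one, coeffMap_ofPowerSeries]

/-- **Conjugating a convergent `q`-expansion.** -/
theorem HasQExp.conj {f : LaurentSeries ℂ} {g : ℍ → ℂ} (h : HasQExp f g) :
    HasQExp (coeffMap (starRingEnd ℂ) f) (conjFun g) := by
  obtain ⟨m, G, hG, hf, hg⟩ := h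
  refine ⟨m, fun q => conj (G (conj q)), diffOn_conjDisc hG, ?_, fun z => ?_⟩
  · rw [hf, coeffMap_lau, tps_conjDisc hG]
  · have h1 := hg (negConj z)
    rw [qH_negConj] at h1
    show conj (g (negConj z)) * qH z ^ m = conj (G (conj (qH z)))
    rw [← h1, map_mul, map_pow, Complex.conj_conj]

/-! ### `conjHol` -/

theorem conjFun_mem_HolH {g : ℍ → ℂ} (hg : g ∈ HolH) : conjFun g ∈ HolH := by
  rw [mem_HolH, UpperHalfPlane.mdifferentiable_iff] at hg ⊢
  have hopen : IsOpen {z : ℂ | 0 < z.im} := UpperHalfPlane.isOpen_upperHalfPlaneSet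
  have hmem : ∀ w : ℂ, 0 < w.im → -(conj w) ∈ {z : ℂ | 0 < z.im} := fun w hw => by
    show 0 < (-(conj w)).im
    simpa using hw
  have key : DifferentiableOn ℂ (conj ∘ (fun w => (g ∘ ofComplex) (-w)) ∘ conj)
      {z : ℂ | 0 < z.im} := by
    intro w hw
    apply DifferentiableAt.differentiableWithinAt
    rw [differentiableAt_conj_conj_iff]
    have h1 : DifferentiableAt ℂ (g ∘ ofComplex) (-(conj w)) :=
      hg.differentiableAt (hopen.mem_nhds (hmem w hw))
    exact h1.comp (conj w) differentiableAt_id.neg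
  refine key.congr fun w hw => ?_
  show conj (g (negConj (ofComplex w))) = conj (g (ofComplex (-(conj w))))
  congr 2
  apply UpperHalfPlane.ext
  rw [coe_negConj, UpperHalfPlane.ofComplex_apply_of_im_pos hw,
    UpperHalfPlane.ofComplex_apply_of_im_pos (hmem w hw)]

/-- Complex conjugation `f ↦ conj ∘ f ∘ (z ↦ -conj z)` on holomorphic functions on `ℍ`. -/
def conjHol : HolH →+* HolH where
  toFun f := ⟨conjFun f.1, conjFun_mem_HolH f.2⟩
  map_one' := Subtype.ext (funext fun z => by
    show conj ((1 : ℍ → ℂ) (negConj z)) = 1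
    simp)
  map_mul' f g := Subtype.ext (funext fun z => by
    show conj ((f.1 * g.1) (negConj z)) = conj (f.1 (negConj z)) * conj (g.1 (negConj z))
    simp)
  map_zero' := Subtype.ext (funext fun z => by
    show conj ((0 : ℍ → ℂ) (negConj z)) = 0
    simp)
  map_add' f g := Subtype.ext (funext fun z => by
    show conj ((f.1 + g.1) (negConj z)) = conj (f.1 (negConj z)) + conj (g.1 (negConj z))
    simp)

@[simp] theorem coe_conjHol (f : HolH) : ((conjHol f : HolH) : ℍ → ℂ) = conjFun f.1 := rfl

theorem conjHol_conjHol (f : HolH) : conjHol (conjHol f) = f :=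
  Subtype.ext (conjFun_conjFun f.1)

theorem conjHol_injective : Function.Injective conjHol := fun f g h => by
  rw [← conjHol_conjHol f, h, conjHol_conjHol]

/-- `conjHol` is conjugate-linear on constants. -/
theorem conjHol_algebraMap (c : ℂ) :
    conjHol (algebraMap ℂ HolH c) = algebraMap ℂ HolH (conj c) := rfl

/-- `-conj (γ' z) = γ (-conj z)` for `γ' = jConjSL γ`. -/
theorem negConj_smul (γ : SL(2, ℤ)) (z : ℍ) : negConj (jConjSL γ • z) = γ • negConj z := by
  apply UpperHalfPlane.ext
  rw [coe_negConj, coe_smul_eq_moebC, coe_smul_eq_moebC, coe_negConj]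
  unfold moebC
  simp only [jConjSL_coe, jConjMat_apply_zero_zero, jConjMat_apply_zero_one,
    jConjMat_apply_one_zero, jConjMat_apply_one_one, map_div₀, map_add, map_mul,
    map_intCast, map_neg, Int.cast_neg]
  ring

theorem conjHol_compSLHom (γ : SL(2, ℤ)) (f : HolH) :
    conjHol (compSLHom γ f) = compSLHom (jConjSL γ) (conjHol f) := by
  apply Subtype.ext
  funext z
  show conj (f.1 (γ • negConj z)) = conj (f.1 (negConj (jConjSL γ • z)))
  rw [negConj_smul]

/-! ### `conjMer` -/

/-- Complex conjugation on the field of meromorphic functions on `ℍ`. -/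
def conjMer : MerH →+* MerH :=
  IsFractionRing.lift (A := HolH) (K := MerH)
    (g := (algebraMap HolH MerH).comp conjHol)
    ((IsFractionRing.injective HolH MerH).comp conjHol_injective)

theorem conjMer_algebraMap (a : HolH) :
    conjMer (algebraMap HolH MerH a) = algebraMap HolH MerH (conjHol a) :=
  IsFractionRing.lift_algebraMap _ a

theorem conjMer_div (a b : HolH) :
    conjMer (algebraMap HolH MerH a / algebraMap HolH MerH b) =
      algebraMap HolH MerH (conjHol a) / algebraMap HolH MerH (conjHol b) := by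
  rw [map_div₀, conjMer_algebraMap, conjMer_algebraMap]

theorem conjMer_conjMer (h : MerH) : conjMer (conjMer h) = h := by
  obtain ⟨a, b, -, rfl⟩ := exists_div_MerH h
  rw [conjMer_div, conjMer_div, conjHol_conjHol, conjHol_conjHol]

/-- `conjMer` is conjugate-linear on constants. -/
theorem conjMer_const (c : ℂ) :
    conjMer (algebraMap HolH MerH (algebraMap ℂ HolH c)) =
      algebraMap HolH MerH (algebraMap ℂ HolH (conj c)) := by
  rw [conjMer_algebraMap, conjHol_algebraMap]

/-- `conjMer` intertwines `slMer γ` and `slMer (jConjSL γ)`. -/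
theorem conjMer_slMer (γ : SL(2, ℤ)) (h : MerH) :
    conjMer (slMer γ h) = slMer (jConjSL γ) (conjMer h) := by
  obtain ⟨a, b, -, rfl⟩ := exists_div_MerH h
  rw [slMer_div, conjMer_div, conjMer_div, slMer_div, conjHol_compSLHom, conjHol_compSLHom]

/-! ### Laurent expansions and the main theorem -/

theorem HasQExpMer.conj {x : LaurentSeries ℂ} {h : MerH} (H : HasQExpMer x h) :
    HasQExpMer (coeffMap (starRingEnd ℂ) x) (conjMer h) := by
  obtain ⟨a, b, fa, fb, hfb, ha, hb, hx, hh⟩ := H
  refine ⟨conjHol a, conjHol b, coeffMap (starRingEnd ℂ) fa, coeffMap (starRingEnd ℂ) fb, ?_,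
    HasQExp.conj ha, HasQExp.conj hb, ?_, ?_⟩
  · exact (map_ne_zero _).mpr hfb
  · rw [← map_mul, hx]
  · rw [← conjMer_algebraMap, ← map_mul, hh, conjMer_algebraMap]

variable (N : ℕ) [NeZero N]

/-- **MAIN**: the analytic realisation intertwines the coefficientwise complex conjugation on
`F_ℂ = FC N` with `conjMer`. -/
theorem realMer_conj (f : FC N) :
    realMer N (arithmeticRingAut (modularFunctionFieldFull N) complexConjAlgEquiv f) =
      conjMer (realMer N f) := by
  have h1 := hasQExpMer_realMer N
    (arithmeticRingAut (modularFunctionFieldFull N) complexConjAlgEquiv f)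
  have h2 := HasQExpMer.conj (hasQExpMer_realMer N f)
  rw [coe_arithmeticRingAut_apply] at h1
  exact h1.unique h2

end Fermat.Agent.MAZ.A3Conj72
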