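/-
Fermat/Agent/MAZ/A3Conj72/HeckeMod.lean  (helper62, programme MAZ, row A3-TMOD; sub-brick of row 676
A3-UNIFORM part 2, owner helper72).

**The Hecke ring `T' = heckeRing N S` at a general level `N` as a commutative ring acting on
`J₀(N)(ℚ̄)`, and the Eisenstein part `Gm N r S k` as `r^k`-torsion of the `m`-part.**

`S ⊇ {primes dividing N}`.
* `heckeRing_mul_comm_of_dvd` : `T'` is commutative (F-COMM, `Comm61`; the generators are the `T_q`,
  `q ∉ S`, hence `q ∤ N`);
* `heckeComm N S hS : CommRing ↥(heckeRing N S)` : instance-free (`@[reducible] def`), extending the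
  subring structure;
* `hecke_smul_apply`, `hecke_pow_smul_apply` : the module structure of the subring on `JZero N`
  (`t • y = (t : Module.End ℤ (JZero N)) y`);
* `etaFam N S` : the family `η_q`, `q ∉ S`, in `T'`;
* `mem_Gm_iff_nilPart` : `y ∈ Gm N r S k ↔ r ^ k • y = 0 ∧ y ∈ Alg5.nilPart (etaFam N S) (JZero N)`.
-/
import Mathlib
import Fermat.Agent.MAZ.Gm5.Defs
import Fermat.Agent.MAZ.Comm61.Main
import Fermat.Agent.MAZ.Alg5.NilPart

set_option autoImplicit false
set_option linter.unusedSectionVars false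
set_option linter.style.haveILetI false

open ModularCurve

noncomputable section

namespace Fermat.Agent.MAZ.A3Conj72

open Fermat.Agent.MAZ.Gm5

variable (N : ℕ) [NeZero N] (S : Finset ℕ)

/-- The generators of the Hecke ring commute (F-COMM): `q ∉ S ⊇ {primes of N}` implies `q ∤ N`. -/
theorem heckeRing_gen_comm_of_dvd (hS : ∀ q : Nat.Primes, (q : ℕ) ∣ N → (q : ℕ) ∈ S) :
    ∀ a ∈ {T : Module.End ℤ (JZero N) | ∃ q : Nat.Primes, (q : ℕ) ∉ S ∧ T = heckeOperatorBar N q},
    ∀ b ∈ {T : Module.End ℤ (JZero N) | ∃ q : Nat.Primes, (q : ℕ) ∉ S ∧ T = heckeOperatorBar N q},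
      a * b = b * a := by
  rintro _ ⟨q, hq, rfl⟩ _ ⟨q', hq', rfl⟩
  exact Fermat.Agent.MAZ.Comm61.Main.heckeOperatorBar_mul_comm N q q'
    (fun h => hq (hS q h)) (fun h => hq' (hS q' h))

/-- **The Hecke ring is commutative** (general level). -/
theorem heckeRing_mul_comm_of_dvd (hS : ∀ q : Nat.Primes, (q : ℕ) ∣ N → (q : ℕ) ∈ S)
    {a b : Module.End ℤ (JZero N)} (ha : a ∈ heckeRing N S) (hb : b ∈ heckeRing N S) :
    a * b = b * a := by
  have hc := Subring.isMulCommutative_closure (heckeRing_gen_comm_of_dvd N S hS)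
  have h := hc.is_comm.comm (⟨a, ha⟩ : Subring.closure
    {T : Module.End ℤ (JZero N) | ∃ q : Nat.Primes, (q : ℕ) ∉ S ∧ T = heckeOperatorBar N q})
    ⟨b, hb⟩
  exact congrArg Subtype.val h

/-- **The commutative ring structure on the Hecke ring** (not an instance; extends the subring
structure, so the subring module structure on `JZero N` is a module structure over it). -/
@[reducible] def heckeComm (hS : ∀ q : Nat.Primes, (q : ℕ) ∣ N → (q : ℕ) ∈ S) :
    CommRing ↥(heckeRing N S) :=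
  { (heckeRing N S).toRing with
    mul_comm := fun a b => Subtype.ext (heckeRing_mul_comm_of_dvd N S hS a.2 b.2) }

/-- the module structure of the subring on `JZero N`. -/
theorem hecke_smul_apply (t : ↥(heckeRing N S)) (y : JZero N) :
    t • y = (t : Module.End ℤ (JZero N)) y := rfl

theorem hecke_pow_smul_apply (t : ↥(heckeRing N S)) (n : ℕ) (y : JZero N) :
    (t ^ n) • y = ((t : Module.End ℤ (JZero N)) ^ n) y := rfl

/-- The family `η_q`, `q ∉ S`, in the Hecke ring. -/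
def etaFam : {q : Nat.Primes // (q : ℕ) ∉ S} → ↥(heckeRing N S) :=
  fun q => ⟨etaBar N q.1, etaBar_mem_heckeRing N q.2⟩

@[simp] theorem coe_etaFam (q : {q : Nat.Primes // (q : ℕ) ∉ S}) :
    ((etaFam N S q : ↥(heckeRing N S)) : Module.End ℤ (JZero N)) = etaBar N q.1 := rfl

/-- **`Gm` is the `r^k`-torsion of the `m`-part** of `JZero N` for the Hecke ring. -/
theorem mem_Gm_iff_nilPart (hS : ∀ q : Nat.Primes, (q : ℕ) ∣ N → (q : ℕ) ∈ S) (r k : ℕ)
    (y : JZero N) :
    letI := heckeComm N S hS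
    y ∈ Gm N r S k ↔ r ^ k • y = 0 ∧
      y ∈ Fermat.Agent.MAZ.Alg5.nilPart
        (fun q : {q : Nat.Primes // (q : ℕ) ∉ S} =>
          (⟨etaBar N q.1, etaBar_mem_heckeRing N q.2⟩ : ↥(heckeRing N S))) (JZero N) := by
  letI := heckeComm N S hS
  rw [mem_Gm_iff, Fermat.Agent.MAZ.Alg5.mem_nilPart_iff]
  constructor
  · rintro ⟨h1, h2⟩
    refine ⟨h1, fun q => ?_⟩
    obtain ⟨n, hn⟩ := h2 q.1 q.2
    exact ⟨n, hn⟩
  · rintro ⟨h1, h2⟩
    refine ⟨h1, fun q hq => ?_⟩
    obtain ⟨n, hn⟩ := h2 ⟨q, hq⟩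
    exact ⟨n, hn⟩

/-- the same with the family `etaFam`. -/
theorem mem_Gm_iff_nilPart' (hS : ∀ q : Nat.Primes, (q : ℕ) ∣ N → (q : ℕ) ∈ S) (r k : ℕ)
    (y : JZero N) :
    letI := heckeComm N S hS
    y ∈ Gm N r S k ↔ r ^ k • y = 0 ∧
      y ∈ Fermat.Agent.MAZ.Alg5.nilPart (etaFam N S) (JZero N) :=
  mem_Gm_iff_nilPart N S hS r k y

end Fermat.Agent.MAZ.A3Conj72
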