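/-
Fermat/Agent/MAZ/A3Conj72/KumAbs.lean  (helper72)

Programme MAZ (S15), row 676 A3-UNIFORM part 2, step KUM-EQ (abstract half):
**the abstract Kummer relation `KummerAbstract17.IsKum` is equivariant under a semilinear
automorphism of the setting.**

If `g : SemilinearAut K F` and a ring endomorphism `cM` of the field `M` of "meromorphic functions"
intertwine the embedding `Θ`, the constants (semilinearly) and the operators `act γ ↦ act (ε γ)`,
then a Kummer datum `(D, f, h)` of `x` is carried to the Kummer datum `(g • D, g • f, cM h)` of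
`g • x`, whose character is `ε γ ↦ g (χ γ)`.
-/
import Mathlib
import Fermat.Prelude.Def_AlgebraicCurve_BaseChangeGalois
import Fermat.Agent.ES.KUM.KummerAbstract17

set_option autoImplicit false

noncomputable section

open AlgebraicCurve

namespace Fermat.Agent.MAZ.A3Conj72

open Fermat.Agent.ES.KUM.KummerAbstract17

universe uK uF uM uG

variable {K : Type uK} {F : Type uF} {M : Type uM} {G : Type uG} [Field K] [Field F]
  [Algebra K F] [Field M] [Group G] (S : Setting K F M G)

/-- **Equivariance of the Kummer relation** under a semilinear automorphism of the setting. -/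
theorem isKum_smul (g : SemilinearAut K F) (cM : M →+* M) (ε : G → G)
    (hε : Function.Surjective ε)
    (hΘ : ∀ f : F, cM (S.Θ f) = S.Θ (g • f))
    (hι : ∀ a : K, cM (S.ι a) = S.ι (SemilinearAut.baseAut g a))
    (hact : ∀ (γ : G) (h : M), cM (S.act γ h) = S.act (ε γ) (cM h))
    {n : ℕ} {x : Pic0 K F} {χ : G →* Kˣ} (hχ : IsKum S n x χ) (χ' : G →* Kˣ)
    (hχ' : ∀ γ : G, ((χ' (ε γ) : Kˣ) : K) = SemilinearAut.baseAut g ((χ γ : Kˣ) : K)) :
    IsKum S n (g • x) χ' := by
  obtain ⟨D, f, h, ⟨hD, hf0, hord, hh⟩, he⟩ := hχ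
  refine ⟨SemilinearAut.degZeroSMulHom g D, g • f, cM h, ⟨?_, ?_, ?_, ?_⟩, ?_⟩
  · rw [← hD, SemilinearAut.pic0_smul_mk]
  · intro h0
    apply hf0
    have : g⁻¹ • (g • f) = g⁻¹ • (0 : F) := by rw [h0]
    rwa [inv_smul_smul, smul_zero] at this
  · intro v
    have hv : v = g • (g⁻¹ • v) := (smul_inv_smul g v).symm
    rw [SemilinearAut.coe_degZeroSMulHom, hv, SemilinearAut.divisor_smul_apply_smul,
      SemilinearAut.ord_smul]
    exact hord _
  · rw [← map_pow, hh, hΘ]
  · intro γ'
    obtain ⟨γ, rfl⟩ := hε γ'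
    rw [← hact, he γ, map_mul, hι, hχ']

end Fermat.Agent.MAZ.A3Conj72
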