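/-
Fermat/Agent/MAZ/A3Conj72/MPart.lean  (helper72)

Programme MAZ (S15), row 676 A3-UNIFORM part 2, sub-brick A3-LATTICE (row 714):
**the `m`-part of a Tate module.**

Setting: `p` prime, `J` an abelian group with finite `p`-torsion, `p`-divisible, a module over a
commutative ring `T`, and a family `η : ι → T`.  With `nilPart η J` the `η`-primary part of helper5's
`Alg5.NilPart`:

* `mLattice p η : Submodule ℤ_[p] (TateModule p J)` : the compatible sequences all of whose
  components lie in `nilPart η J`;
* `exists_mem_mLattice` : `proj k : mLattice → J[p^k] ∩ nilPart` is SURJECTIVE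
  (exactness of the `m`-part on the finite modules `J[p^j]`);
* `exists_pow_smul_of_proj_eq_zero` : its kernel is `p^k • mLattice`;
* `mem_mLattice_iff_adic` : `x ∈ mLattice ↔` every `η i` is topologically nilpotent on `x`;
* `linear_mem_mLattice` : a `ℤ_[p]`-linear endomorphism of the Tate module commuting with the
  `η i` preserves `mLattice`.

Imports only `ES/J/TateModule13` (Mathlib only) and `MAZ/Alg5/NilPart` (Mathlib only).
-/
import Mathlib
import Fermat.Agent.ES.J.TateModule13
import Fermat.Agent.MAZ.Alg5.NilPart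

set_option autoImplicit false
set_option linter.unusedSectionVars false

noncomputable section

namespace Fermat.Agent.MAZ.A3Conj72

open Fermat.Agent.ES.J.TateModule13
open Fermat.Agent.MAZ.Alg5 (nilPart mem_nilPart_submodule_iff exists_mem_nilPart_of_surjective)

variable (p : ℕ) [hp : Fact p.Prime] {J : Type*} [AddCommGroup J]
  {T : Type*} [CommRing T] [Module T J] {ι : Type*} (η : ι → T)

/-! ### the torsion submodules -/

/-- `J[p^k]` as a `T`-submodule. -/
def torsT (T : Type*) [CommRing T] (J : Type*) [AddCommGroup J] [Module T J] (k : ℕ) :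
    Submodule T J where
  carrier := {y | p ^ k • y = 0}
  zero_mem' := smul_zero _
  add_mem' := by
    intro a b ha hb
    show p ^ k • (a + b) = 0
    rw [smul_add, ha, hb, add_zero]
  smul_mem' := by
    intro t a ha
    show p ^ k • (t • a) = 0
    rw [smul_comm, ha, smul_zero]

theorem mem_torsT {k : ℕ} {y : J} : y ∈ torsT p T J k ↔ p ^ k • y = 0 := Iff.rfl

/-- `J[p]` finite ⇒ `J[p^k]` finite. -/
theorem finite_torsT [Finite {y : J // p • y = 0}] (k : ℕ) : Finite ↥(torsT p T J k) := by
  have h1 : {y : J | p • y = 0}.Finite :=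
    Set.finite_coe_iff.mp (inferInstanceAs (Finite {y : J // p • y = 0}))
  have hk : {y : J | p ^ k • y = 0}.Finite := by
    induction k with
    | zero =>
      refine (Set.finite_singleton (0 : J)).subset ?_
      intro y hy
      have : p ^ 0 • y = 0 := hy
      rw [pow_zero, one_smul] at this
      exact this
    | succ k ih =>
      refine Set.Finite.of_finite_fibers (fun y : J => p • y) (ih.subset ?_) ?_
      · rintro _ ⟨y, hy, rfl⟩
        show p ^ k • (p • y) = 0
        rw [← mul_smul, ← pow_succ]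
        exact hy
      · rintro _ ⟨y₀, _, rfl⟩
        refine (h1.image (fun z => y₀ + z)).subset ?_
        rintro y ⟨_, hy⟩
        refine ⟨y - y₀, ?_, add_sub_cancel y₀ y⟩
        show p • (y - y₀) = 0
        rw [smul_sub, sub_eq_zero]
        exact hy
  exact hk.to_subtype

/-- multiplication by `p`, `J[p^(k+1)] → J[p^k]`. -/
def mulP (k : ℕ) : ↥(torsT p T J (k + 1)) →ₗ[T] ↥(torsT p T J k) where
  toFun y := ⟨p • (y : J), by
    show p ^ k • (p • (y : J)) = 0
    rw [← mul_smul, ← pow_succ]
    exact y.2⟩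
  map_add' a b := by
    apply Subtype.ext
    show p • ((a : J) + (b : J)) = p • (a : J) + p • (b : J)
    rw [smul_add]
  map_smul' t a := by
    apply Subtype.ext
    show p • (t • (a : J)) = t • (p • (a : J))
    rw [smul_comm]

theorem coe_mulP (k : ℕ) (y : ↥(torsT p T J (k + 1))) : ((mulP p k y : ↥(torsT p T J k)) : J) = p • (y : J) :=
  rfl

theorem mulP_surjective (hdiv : ∀ y : J, ∃ z : J, p • z = y) (k : ℕ) :
    Function.Surjective (mulP p (T := T) (J := J) k) := by
  intro y
  obtain ⟨z, hz⟩ := hdiv (y : J)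
  refine ⟨⟨z, ?_⟩, Subtype.ext hz⟩
  show p ^ (k + 1) • z = 0
  rw [pow_succ, mul_smul, hz]
  exact y.2

/-- **one lifting step inside the `m`-part.** -/
theorem exists_lift_nilPart [Finite {y : J // p • y = 0}] (hdiv : ∀ y : J, ∃ z : J, p • z = y)
    (j : ℕ) (y : J) (hy : p ^ j • y = 0) (hy' : y ∈ nilPart η J) :
    ∃ y' : J, p ^ (j + 1) • y' = 0 ∧ y' ∈ nilPart η J ∧ p • y' = y := by
  have := finite_torsT p (T := T) (J := J) (j + 1)
  have hyN : (⟨y, hy⟩ : ↥(torsT p T J j)) ∈ nilPart η ↥(torsT p T J j) :=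
    (mem_nilPart_submodule_iff η (torsT p T J j)).mpr hy'
  obtain ⟨x, hx, hfx⟩ :=
    exists_mem_nilPart_of_surjective η (mulP p j) (mulP_surjective p hdiv j) hyN
  refine ⟨(x : J), x.2, (mem_nilPart_submodule_iff η (torsT p T J (j + 1))).mp hx, ?_⟩
  have := congrArg Subtype.val hfx
  exact this

/-! ### the lattice -/

/-- **the `m`-part of the Tate module**: sequences with all components in `nilPart η J`. -/
def mLattice : Submodule ℤ_[p] (TateModule p J) where
  carrier := {x | ∀ k, proj k x ∈ nilPart η J}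
  zero_mem' := fun k => by
    rw [map_zero]
    exact Submodule.zero_mem _
  add_mem' := by
    intro a b ha hb k
    rw [map_add]
    exact Submodule.add_mem _ (ha k) (hb k)
  smul_mem' := by
    intro c a ha k
    rw [proj_smul]
    exact Submodule.smul_of_tower_mem _ _ (ha k)

variable {p η}

theorem mem_mLattice {x : TateModule p J} : x ∈ mLattice p η ↔ ∀ k, proj k x ∈ nilPart η J :=
  Iff.rfl

/-- the lifting data above level `k`. -/
private def Lift (p : ℕ) (η : ι → T) (k : ℕ) (i : ℕ) : Type _ :=
  {y : J // p ^ (k + i) • y = 0 ∧ y ∈ nilPart η J}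

/-- **surjectivity of `proj k` on the `m`-part.** -/
theorem exists_mem_mLattice [Finite {y : J // p • y = 0}] (hdiv : ∀ y : J, ∃ z : J, p • z = y)
    (k : ℕ) (y : J) (hy : p ^ k • y = 0) (hy' : y ∈ nilPart η J) :
    ∃ x ∈ mLattice p η, proj k x = y := by
  classical
  -- choose lifts step by step
  have hstep : ∀ (i : ℕ) (u : Lift (J := J) p η k i),
      ∃ u' : Lift (J := J) p η k (i + 1), p • (u'.1 : J) = u.1 := by
    intro i u
    obtain ⟨y', h1, h2, h3⟩ := exists_lift_nilPart p η hdiv (k + i) u.1 u.2.1 u.2.2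
    exact ⟨⟨y', by rw [← add_assoc]; exact h1, h2⟩, h3⟩
  choose step hstepspec using hstep
  let u : ∀ i : ℕ, Lift (J := J) p η k i := fun i =>
    Nat.rec (motive := fun i => Lift (J := J) p η k i) ⟨y, hy, hy'⟩
      (fun i ui => step i ui) i
  have hu0 : (u 0).1 = y := rfl
  have husucc : ∀ i, p • ((u (i + 1)).1 : J) = (u i).1 := fun i => hstepspec i (u i)
  -- `p ^ i • u i = y`
  have hpow : ∀ i, p ^ i • ((u i).1 : J) = y := by
    intro i
    induction i with
    | zero => rw [pow_zero, one_smul, hu0]
    | succ i ih => rw [pow_succ, mul_smul, husucc, ih]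
  -- the sequence `x j = p ^ k • u j`
  have hmem : (fun j => p ^ k • ((u j).1 : J)) ∈ tateSubgroup p J := by
    refine ⟨?_, fun j => ?_⟩
    · show p ^ k • ((u 0).1 : J) = 0
      rw [hu0, hy]
    · show p • (p ^ k • ((u (j + 1)).1 : J)) = p ^ k • ((u j).1 : J)
      rw [smul_comm, husucc]
  refine ⟨(⟨_, hmem⟩ : TateModule p J), fun j => ?_, ?_⟩
  · show p ^ k • ((u j).1 : J) ∈ nilPart η J
    exact Submodule.smul_of_tower_mem _ _ (u j).2.2
  · show p ^ k • ((u k).1 : J) = y
    exact hpow k

/-- **the kernel of `proj k` on the `m`-part is `p ^ k • mLattice`.** -/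
theorem exists_pow_smul_of_proj_eq_zero (k : ℕ) (x : TateModule p J) (hx : x ∈ mLattice p η)
    (h0 : proj k x = 0) : ∃ y ∈ mLattice p η, x = ((p : ℤ_[p]) ^ k) • y := by
  refine ⟨shift k x h0, fun j => ?_, ?_⟩
  · show (x : ℕ → J) (k + j) ∈ nilPart η J
    exact hx (k + j)
  · ext j
    rw [← Nat.cast_pow, TateModule.natCast_smul_apply]
    exact (pow_smul_apply_add x k j).symm

/-- the endomorphism `y ↦ t • y` of `J`. -/
def smulEnd (t : T) : J →+ J := DistribSMul.toAddMonoidHom J t

@[simp] theorem smulEnd_apply (t : T) (y : J) : smulEnd t y = t • y := rfl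

theorem proj_map_smulEnd_pow (t : T) (n k : ℕ) (x : TateModule p J) :
    proj k (((map (smulEnd t) : Module.End ℤ_[p] (TateModule p J)) ^ n) x) = t ^ n • proj k x := by
  induction n generalizing x with
  | zero => rw [pow_zero, pow_zero, one_smul]; rfl
  | succ n ih =>
    rw [pow_succ, Module.End.mul_apply, ih, proj_map, smulEnd_apply, pow_succ, mul_smul]

/-- **adic characterisation**: `x` is in the `m`-part iff every `η i` is topologically nilpotent
on `x`. -/
theorem mem_mLattice_iff_adic (x : TateModule p J) :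
    x ∈ mLattice p η ↔ ∀ (i : ι) (k : ℕ), ∃ (n : ℕ) (y : TateModule p J),
      ((map (smulEnd (η i)) : Module.End ℤ_[p] (TateModule p J)) ^ n) x = ((p : ℤ_[p]) ^ k) • y := by
  constructor
  · intro hx i k
    obtain ⟨n, hn⟩ := hx k i
    refine ⟨n, ?_⟩
    rw [← proj_eq_zero_iff', proj_map_smulEnd_pow]
    exact hn
  · intro h k i
    obtain ⟨n, hn⟩ := h i k
    refine ⟨n, ?_⟩
    rw [← proj_map_smulEnd_pow, proj_eq_zero_iff']
    exact hn

/-- **stability**: a `ℤ_[p]`-linear endomorphism of the Tate module commuting with the `η i`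
preserves the `m`-part. -/
theorem linear_mem_mLattice (L : TateModule p J →ₗ[ℤ_[p]] TateModule p J)
    (hL : ∀ (i : ι) (x : TateModule p J), L (map (smulEnd (η i)) x) = map (smulEnd (η i)) (L x))
    {x : TateModule p J} (hx : x ∈ mLattice p η) : L x ∈ mLattice p η := by
  rw [mem_mLattice_iff_adic] at hx ⊢
  intro i k
  obtain ⟨n, y, hy⟩ := hx i k
  refine ⟨n, L y, ?_⟩
  have hcomm : ∀ (m : ℕ) (z : TateModule p J),
      ((map (smulEnd (η i)) : Module.End ℤ_[p] (TateModule p J)) ^ m) (L z) =
        L (((map (smulEnd (η i)) : Module.End ℤ_[p] (TateModule p J)) ^ m) z) := by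
    intro m
    induction m with
    | zero => intro z; rfl
    | succ m ih =>
      intro z
      rw [pow_succ, Module.End.mul_apply, Module.End.mul_apply, ← hL, ih]
  rw [hcomm, hy, map_smul]

/-- an additive endomorphism of `J` preserving `nilPart` preserves the `m`-part. -/
theorem map_mem_mLattice (f : J →+ J) (hf : ∀ y ∈ nilPart η J, f y ∈ nilPart η J)
    {x : TateModule p J} (hx : x ∈ mLattice p η) : map f x ∈ mLattice p η := fun k => by
  rw [proj_map]
  exact hf _ (hx k)

end Fermat.Agent.MAZ.A3Conj72
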