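/-
Programme MAZ (S15), row 676 A3-UNIFORM part 2, sub-brick [ND] (helper58; spec = report 1117 by helper72):
**Noether–Deuring in matrix form.**  If two families of integer matrices are intertwined by an invertible
COMPLEX matrix, they are intertwined by an INTEGER matrix with non-zero determinant.

Proof: expand the entries of `X₀` in a `ℚ`-basis `b` of `ℂ`; each coordinate matrix `Y j` is a rational
intertwiner, `X₀ = ∑ j ∈ F, b j • Y j` for a finite `F`; the polynomial `det (∑ j, z j • Y j)` in the variables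
`z j` is non-zero at `z = b`, hence non-zero, hence non-zero at a rational point (`ℚ` is infinite); clear
denominators.  Mathlib only.
-/
import Mathlib

set_option autoImplicit false

namespace Fermat.Agent.MAZ.A3Conj72.ND

variable {n : Type*} [Fintype n] [DecidableEq n] {κ : Type*}

/-- Rational form. -/
theorem exists_rat_intertwiner (A B : κ → Matrix n n ℚ) (X₀ : Matrix n n ℂ) (hdet : X₀.det ≠ 0)
    (hX₀ : ∀ i, X₀ * (A i).map (Rat.cast : ℚ → ℂ) = (B i).map (Rat.cast : ℚ → ℂ) * X₀) :
    ∃ X : Matrix n n ℚ, X.det ≠ 0 ∧ ∀ i, X * A i = B i * X := by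
  classical
  let b := Module.Free.chooseBasis ℚ ℂ
  -- the coordinate matrices
  let Y : Module.Free.ChooseBasisIndex ℚ ℂ → Matrix n n ℚ :=
    fun j => Matrix.of fun a c => b.repr (X₀ a c) j
  have hYapp : ∀ j a c, Y j a c = b.repr (X₀ a c) j := fun _ _ _ => rfl
  let F : Finset (Module.Free.ChooseBasisIndex ℚ ℂ) :=
    Finset.univ.biUnion fun ac : n × n => (b.repr (X₀ ac.1 ac.2)).support
  -- reconstruction of `X₀`
  have hrec : ∀ a c, X₀ a c = ∑ j ∈ F, ((Y j a c : ℚ) : ℂ) * b j := by
    intro a c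
    have h1 : X₀ a c = ∑ j ∈ (b.repr (X₀ a c)).support, (b.repr (X₀ a c) j) • b j := by
      conv_lhs => rw [← b.linearCombination_repr (X₀ a c)]
      rw [Finsupp.linearCombination_apply, Finsupp.sum]
    have hsub : (b.repr (X₀ a c)).support ⊆ F := by
      intro j hj
      exact Finset.mem_biUnion.2 ⟨(a, c), Finset.mem_univ _, hj⟩
    rw [h1, Finset.sum_subset hsub]
    · refine Finset.sum_congr rfl fun j _ => ?_
      rw [hYapp, Rat.smul_def]
    · intro j _ hj
      rw [Finsupp.notMem_support_iff.1 hj, zero_smul]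
  -- each coordinate matrix intertwines
  have hY : ∀ i j, Y j * A i = B i * Y j := by
    intro i j
    have hmulr : ∀ (z : ℂ) (q : ℚ), b.repr (z * (q : ℂ)) j = b.repr z j * q := by
      intro z q
      rw [mul_comm z, ← Rat.smul_def, map_smul, Finsupp.smul_apply, smul_eq_mul, mul_comm]
    have hmull : ∀ (z : ℂ) (q : ℚ), b.repr ((q : ℂ) * z) j = q * b.repr z j := by
      intro z q
      rw [← Rat.smul_def, map_smul, Finsupp.smul_apply, smul_eq_mul]
    ext a c
    have h := congrFun (congrFun (hX₀ i) a) c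
    simp only [Matrix.mul_apply, Matrix.map_apply] at h
    rw [Matrix.mul_apply, Matrix.mul_apply]
    calc ∑ d, Y j a d * A i d c = ∑ d, b.repr (X₀ a d * ((A i d c : ℚ) : ℂ)) j := by
          refine Finset.sum_congr rfl fun d _ => ?_
          rw [hmulr, hYapp]
      _ = b.repr (∑ d, X₀ a d * ((A i d c : ℚ) : ℂ)) j := by
          rw [map_sum, Finsupp.finsetSum_apply]
      _ = b.repr (∑ d, ((B i a d : ℚ) : ℂ) * X₀ d c) j := by rw [h]
      _ = ∑ d, b.repr (((B i a d : ℚ) : ℂ) * X₀ d c) j := by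
          rw [map_sum, Finsupp.finsetSum_apply]
      _ = ∑ d, B i a d * Y j d c := by
          refine Finset.sum_congr rfl fun d _ => ?_
          rw [hmull, hYapp]
  -- the determinant polynomial
  let M : Matrix n n (MvPolynomial F ℚ) :=
    Matrix.of fun a c => ∑ j : F, MvPolynomial.C (Y j a c) * MvPolynomial.X j
  have hMapp : ∀ a c, M a c = ∑ j : F, MvPolynomial.C (Y j a c) * MvPolynomial.X j := fun _ _ => rfl
  have hevalC : MvPolynomial.aeval (fun j : F => b j) M.det = X₀.det := by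
    rw [AlgHom.map_det]
    congr 1
    ext a c
    rw [AlgHom.mapMatrix_apply, Matrix.map_apply, hMapp, map_sum, hrec a c, ← Finset.sum_coe_sort F]
    refine Finset.sum_congr rfl fun j _ => ?_
    rw [map_mul, MvPolynomial.aeval_C, MvPolynomial.aeval_X, eq_ratCast]
  have hP : M.det ≠ 0 := by
    intro h0
    rw [h0, map_zero] at hevalC
    exact hdet hevalC.symm
  obtain ⟨q, hq⟩ : ∃ q : F → ℚ, MvPolynomial.eval q M.det ≠ 0 := by
    by_contra hcon
    push Not at hcon
    exact hP (MvPolynomial.funext fun q => by rw [hcon q, map_zero])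
  refine ⟨∑ j : F, q j • Y j, ?_, fun i => ?_⟩
  · have h1 : (∑ j : F, q j • Y j).det = MvPolynomial.eval q M.det := by
      rw [RingHom.map_det]
      congr 1
      ext a c
      rw [RingHom.mapMatrix_apply, Matrix.map_apply, hMapp, map_sum, Matrix.sum_apply]
      refine Finset.sum_congr rfl fun j _ => ?_
      rw [map_mul, MvPolynomial.eval_C, MvPolynomial.eval_X, Matrix.smul_apply, smul_eq_mul, mul_comm]
    rw [h1]
    exact hq
  · rw [Finset.sum_mul, Finset.mul_sum]
    refine Finset.sum_congr rfl fun j _ => ?_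
    rw [Matrix.smul_mul, Matrix.mul_smul, hY]

/-- **Noether–Deuring, matrix form** (exact signature of report 1117 [ND]). -/
theorem exists_int_intertwiner (A B : κ → Matrix n n ℤ) (X₀ : Matrix n n ℂ) (hdet : X₀.det ≠ 0)
    (hX₀ : ∀ i, X₀ * (A i).map (Int.cast : ℤ → ℂ) = (B i).map (Int.cast : ℤ → ℂ) * X₀) :
    ∃ X : Matrix n n ℤ, X.det ≠ 0 ∧ ∀ i, X * A i = B i * X := by
  classical
  have hcast : ∀ C : Matrix n n ℤ,
      (C.map (Int.cast : ℤ → ℚ)).map (Rat.cast : ℚ → ℂ) = C.map (Int.cast : ℤ → ℂ) := by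
    intro C
    ext a c
    simp only [Matrix.map_apply, Rat.cast_intCast]
  obtain ⟨Xq, hXq_det, hXq⟩ := exists_rat_intertwiner
    (fun i => (A i).map (Int.cast : ℤ → ℚ)) (fun i => (B i).map (Int.cast : ℤ → ℚ)) X₀ hdet
    (fun i => by rw [hcast, hcast]; exact hX₀ i)
  -- clear denominators
  obtain ⟨d, hd⟩ := IsLocalization.exist_integer_multiples (nonZeroDivisors ℤ)
    (Finset.univ : Finset (n × n)) (fun ac => Xq ac.1 ac.2)
  have hd' : ∀ ac : n × n, ∃ z : ℤ, (z : ℚ) = ((d : ℤ) : ℚ) * Xq ac.1 ac.2 := by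
    intro ac
    obtain ⟨z, hz⟩ := hd ac (Finset.mem_univ _)
    refine ⟨z, ?_⟩
    rw [eq_intCast] at hz
    rw [hz, Algebra.smul_def, eq_intCast]
  choose z hz using hd'
  have hZ : (Matrix.of fun a c => z (a, c) : Matrix n n ℤ).map (Int.cast : ℤ → ℚ) =
      ((d : ℤ) : ℚ) • Xq := by
    ext a c
    rw [Matrix.map_apply, Matrix.of_apply, hz, Matrix.smul_apply, smul_eq_mul]
  have hd0 : ((d : ℤ) : ℚ) ≠ 0 := by
    exact_mod_cast nonZeroDivisors.coe_ne_zero d
  refine ⟨Matrix.of fun a c => z (a, c), ?_, fun i => ?_⟩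
  · intro h0
    have h1 : ((Matrix.of fun a c => z (a, c) : Matrix n n ℤ).map (Int.cast : ℤ → ℚ)).det = 0 := by
      have h2 := (Int.castRingHom ℚ).map_det (Matrix.of fun a c => z (a, c) : Matrix n n ℤ)
      rw [h0, map_zero] at h2
      exact h2.symm
    rw [hZ, Matrix.det_smul] at h1
    rcases mul_eq_zero.1 h1 with h | h
    · exact pow_ne_zero _ hd0 h
    · exact hXq_det h
  · have hmapmul : ∀ C D : Matrix n n ℤ, (C * D).map (Int.cast : ℤ → ℚ) =
        C.map (Int.cast : ℤ → ℚ) * D.map (Int.cast : ℤ → ℚ) := fun C D =>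
      Matrix.map_mul (f := Int.castRingHom ℚ)
    apply Matrix.map_injective (Int.cast_injective (α := ℚ))
    show ((Matrix.of fun a c => z (a, c) : Matrix n n ℤ) * A i).map (Int.cast : ℤ → ℚ) =
      (B i * (Matrix.of fun a c => z (a, c) : Matrix n n ℤ)).map (Int.cast : ℤ → ℚ)
    rw [hmapmul, hmapmul, hZ, Matrix.smul_mul, Matrix.mul_smul, hXq i]

end Fermat.Agent.MAZ.A3Conj72.ND

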