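/-
Programme MAZ (S15), row 676 A3-UNIFORM part 2, sub-brick A3-SWAP (row 716; helper42, design helper72,
report 1117): **an integral operator on the parabolic homomorphisms commuting with the Hecke operators and
anticommuting with the involution.**

`P_R := parabolicHoms R Γ₀(N) R`, `ι_R := iotaPar N R` (restriction of the Prelude `charInvolution`),
`T_l := tdcPar hlN R R` (`l ∤ N`).  Over `ℂ`, Eichler–Shimura (`S21.result`) gives
`ψ = periodHomPair N : S₂ × S₂ ≃ P_ℂ`, Hecke-equivariant (`PeriodHeckeDC1.periodHomPair_heckeTLin`) with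
`ι ψ(f, g) = ψ(f, -g)`; so `J_ℂ := ψ ∘ swap ∘ ψ⁻¹` is invertible, commutes with all `T_l` and anticommutes
with `ι`.  In the bases `parBasis R` (`ParLattice11`: the same integer matrices over every `R`) these are
`ℚ`-linear conditions with a complex solution of nonzero determinant, hence (Noether–Deuring, `ND.lean`)
an INTEGER solution `X` with `det X ≠ 0`; `J := toLin (X.map cast)` over `ℤ_[r]` is injective.
-/
import Fermat.Agent.S21
import Fermat.Agent.ES.HEQ.PeriodHeckeDC1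
import Fermat.Agent.ES.HEQ.DoubleCosetPar27
import Fermat.Agent.ES.HEQ.ParLattice11
import Fermat.Agent.MAZ.A3Conj72.ND

set_option autoImplicit false

noncomputable section

namespace Fermat.Agent.MAZ.A3Conj72

open ModularCurve ModularCurve.Period CongruenceSubgroup
open Fermat.Agent.ES.HEQ.ParLattice11 Fermat.Agent.ES.HEQ.DoubleCoset27
open Fermat.Agent.ES.HEQ.DoubleCosetPar27

/-- The involution `ψ ↦ ψ ∘ (conjugation by diag(-1,1))` on the parabolic homomorphisms. -/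
def iotaPar (N : ℕ) (R : Type*) [Ring R] :
    ↥(parabolicHoms R (Gamma0 N) R) →ₗ[R] ↥(parabolicHoms R (Gamma0 N) R) where
  toFun φ := ⟨charInvolution N R R φ.1, charInvolution_mem_parabolicHoms N R R φ.2⟩
  map_add' φ ψ := Subtype.ext (map_add (charInvolution N R R) φ.1 ψ.1)
  map_smul' c φ := Subtype.ext (map_smul (charInvolution N R R) c φ.1)

@[simp] theorem coe_iotaPar (N : ℕ) (R : Type*) [Ring R] (φ : ↥(parabolicHoms R (Gamma0 N) R)) :
    ((iotaPar N R φ : ↥(parabolicHoms R (Gamma0 N) R)) : Additive (Gamma0 N) →+ R)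
      = charInvolution N R R φ.1 := rfl

section Cast

variable (N : ℕ) (R : Type*) [Ring R]

theorem iotaPar_castPar (φ : ↥(parabolicHoms ℤ (Gamma0 N) ℤ)) :
    iotaPar N R (castPar (Gamma0 N) R φ) = castPar (Gamma0 N) R (iotaPar N ℤ φ) := by
  apply Subtype.ext
  refine AddMonoidHom.ext fun g => ?_
  rfl

variable {N}

theorem tdcPar_castPar {l : ℕ} [Fact l.Prime] (hlN : ¬ l ∣ N)
    (φ : ↥(parabolicHoms ℤ (Gamma0 N) ℤ)) :
    tdcPar hlN R R (castPar (Gamma0 N) R φ) = castPar (Gamma0 N) R (tdcPar hlN ℤ ℤ φ) := by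
  apply Subtype.ext
  refine AddMonoidHom.ext fun g => ?_
  obtain ⟨γ, rfl⟩ := Additive.ofMul.surjective g
  rw [coe_tdcPar, tdcAdd_apply, castPar_apply, coe_tdcPar, tdcAdd_apply, Int.cast_sum]
  rfl

end Cast

/-! ### Matrices in the uniform bases -/

section Mat

variable {Γ : Subgroup (Matrix.SpecialLinearGroup (Fin 2) ℤ)} (hΓ : Γ.FG)
variable (R : Type*) [CommRing R] [IsAddTorsionFree R]

/-- If `tR` extends `tZ` along `castPar`, its matrix in `parBasis R` is the cast of the matrix of `tZ`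
in `lamBasis`. -/
theorem toMatrix_cast (tZ : ↥(parabolicHoms ℤ Γ ℤ) →ₗ[ℤ] ↥(parabolicHoms ℤ Γ ℤ))
    (tR : ↥(parabolicHoms R Γ R) →ₗ[R] ↥(parabolicHoms R Γ R))
    (h : ∀ φ, tR (castPar Γ R φ) = castPar Γ R (tZ φ)) :
    LinearMap.toMatrix (parBasis R hΓ) (parBasis R hΓ) tR
      = (LinearMap.toMatrix (lamBasis hΓ) (lamBasis hΓ) tZ).map (Int.cast : ℤ → R) := by
  ext i j
  rw [LinearMap.toMatrix_apply, Matrix.map_apply, LinearMap.toMatrix_apply, parBasis_apply, h,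
    parBasis_repr, castPar_apply, lamBasis_repr, lamBasis_apply]

end Mat

/-! ### The complex swap -/

section Complex

variable (N : ℕ) [NeZero N]

/-- Eichler–Shimura as a linear equivalence `S₂ × S₂ ≃ P_ℂ`. -/
def psi : (CuspForm (Gamma0 N) 2 × CuspForm (Gamma0 N) 2) ≃ₗ[ℂ]
    ↥(parabolicHoms ℂ (Gamma0 N) ℂ) :=
  LinearEquiv.ofBijective
    ((periodHomPair N).codRestrict (parabolicHoms ℂ (Gamma0 N) ℂ) (fun x => by
      rw [← (Fermat.Agent.S21.result N).2]
      exact LinearMap.mem_range_self _ x))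
    ⟨fun x y hxy => (Fermat.Agent.S21.result N).1 (congrArg Subtype.val hxy), fun φ => by
      have hφ : (φ : Additive (Gamma0 N) →+ ℂ) ∈ LinearMap.range (periodHomPair N) := by
        rw [(Fermat.Agent.S21.result N).2]
        exact φ.2
      obtain ⟨x, hx⟩ := hφ
      exact ⟨x, Subtype.ext hx⟩⟩

theorem coe_psi (x : CuspForm (Gamma0 N) 2 × CuspForm (Gamma0 N) 2) :
    ((psi N x : ↥(parabolicHoms ℂ (Gamma0 N) ℂ)) : Additive (Gamma0 N) →+ ℂ)
      = periodHomPair N x := rfl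

variable {N}

theorem tdcPar_psi {l : ℕ} [hl : Fact l.Prime] (hlN : ¬ l ∣ N) (f g : CuspForm (Gamma0 N) 2) :
    tdcPar hlN ℂ ℂ (psi N (f, g))
      = psi N (CuspForm.heckeTLin 2 hl.out hlN f, CuspForm.heckeTLin 2 hl.out hlN g) := by
  apply Subtype.ext
  rw [coe_tdcPar, coe_psi, coe_psi]
  exact (Fermat.Agent.ES.HEQ.PeriodHeckeDC1.periodHomPair_heckeTLin hlN
    (tdcAdd_charInvolution hlN ℂ) f g).symm

variable (N)

theorem periodMap_neg (g : CuspForm (Gamma0 N) 2) : periodMap N (-g) = -periodMap N g := by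
  obtain ⟨pml, hpml⟩ := Fermat.Agent.S21.Primitive.existsPeriodMapLinear N
  rw [← hpml, ← hpml, map_neg]

theorem iotaPar_psi (f g : CuspForm (Gamma0 N) 2) :
    iotaPar N ℂ (psi N (f, g)) = psi N (f, -g) := by
  apply Subtype.ext
  rw [coe_iotaPar, coe_psi, coe_psi, Fermat.Agent.S21.Primitive.periodHomPair_apply,
    Fermat.Agent.S21.Primitive.periodHomPair_apply, periodMap_neg, map_add, map_add, map_sub,
    map_neg, charInvolution_charInvolution, charInvolution_charInvolution]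
  abel

/-- The complex swap `J_ℂ = ψ ∘ swap ∘ ψ⁻¹`. -/
def swapC : ↥(parabolicHoms ℂ (Gamma0 N) ℂ) ≃ₗ[ℂ] ↥(parabolicHoms ℂ (Gamma0 N) ℂ) :=
  (psi N).symm.trans ((LinearEquiv.prodComm ℂ _ _).trans (psi N))

theorem swapC_psi (f g : CuspForm (Gamma0 N) 2) : swapC N (psi N (f, g)) = psi N (g, f) := by
  rw [swapC, LinearEquiv.trans_apply, LinearEquiv.symm_apply_apply, LinearEquiv.trans_apply]
  rfl

variable {N}

theorem swapC_tdcPar {l : ℕ} [Fact l.Prime] (hlN : ¬ l ∣ N) (φ : ↥(parabolicHoms ℂ (Gamma0 N) ℂ)) :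
    swapC N (tdcPar hlN ℂ ℂ φ) = tdcPar hlN ℂ ℂ (swapC N φ) := by
  obtain ⟨⟨f, g⟩, rfl⟩ := (psi N).surjective φ
  rw [tdcPar_psi, swapC_psi, swapC_psi, tdcPar_psi]

variable (N)

theorem swapC_iotaPar (φ : ↥(parabolicHoms ℂ (Gamma0 N) ℂ)) :
    swapC N (iotaPar N ℂ φ) = - iotaPar N ℂ (swapC N φ) := by
  obtain ⟨⟨f, g⟩, rfl⟩ := (psi N).surjective φ
  rw [iotaPar_psi, swapC_psi, swapC_psi, iotaPar_psi, ← map_neg]
  congr 1
  rw [Prod.neg_mk, neg_neg]

end Complex

/-! ### Descent to `ℤ` and the swap over any characteristic-zero domain -/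

section Descent

variable (N : ℕ) [NeZero N]

/-- The integer matrix of `T_l` in `lamBasis`. -/
def heckeMat (i : {l : ℕ // l.Prime ∧ ¬ l ∣ N}) :
    Matrix (Fin (rk (Gamma0 N))) (Fin (rk (Gamma0 N))) ℤ :=
  haveI : Fact i.1.Prime := ⟨i.2.1⟩
  LinearMap.toMatrix (lamBasis (fg_Gamma0 N)) (lamBasis (fg_Gamma0 N)) (tdcPar i.2.2 ℤ ℤ)

/-- The integer matrix of `ι` in `lamBasis`. -/
def iotaMat : Matrix (Fin (rk (Gamma0 N))) (Fin (rk (Gamma0 N))) ℤ :=
  LinearMap.toMatrix (lamBasis (fg_Gamma0 N)) (lamBasis (fg_Gamma0 N)) (iotaPar N ℤ)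

/-- The integer matrix of `-ι` in `lamBasis`. -/
def negIotaMat : Matrix (Fin (rk (Gamma0 N))) (Fin (rk (Gamma0 N))) ℤ :=
  LinearMap.toMatrix (lamBasis (fg_Gamma0 N)) (lamBasis (fg_Gamma0 N)) (-iotaPar N ℤ)

variable (R : Type*) [CommRing R] [IsAddTorsionFree R]

theorem toMatrix_tdcPar {l : ℕ} [Fact l.Prime] (hlN : ¬ l ∣ N) :
    LinearMap.toMatrix (parBasis R (fg_Gamma0 N)) (parBasis R (fg_Gamma0 N)) (tdcPar hlN R R)
      = (heckeMat N ⟨l, Fact.out, hlN⟩).map (Int.cast : ℤ → R) :=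
  toMatrix_cast (fg_Gamma0 N) R (tdcPar hlN ℤ ℤ) (tdcPar hlN R R) (tdcPar_castPar R hlN)

theorem toMatrix_iotaPar :
    LinearMap.toMatrix (parBasis R (fg_Gamma0 N)) (parBasis R (fg_Gamma0 N)) (iotaPar N R)
      = (iotaMat N).map (Int.cast : ℤ → R) :=
  toMatrix_cast (fg_Gamma0 N) R (iotaPar N ℤ) (iotaPar N R) (iotaPar_castPar N R)

theorem toMatrix_neg_iotaPar :
    LinearMap.toMatrix (parBasis R (fg_Gamma0 N)) (parBasis R (fg_Gamma0 N)) (-iotaPar N R)
      = (negIotaMat N).map (Int.cast : ℤ → R) :=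
  toMatrix_cast (fg_Gamma0 N) R (-iotaPar N ℤ) (-iotaPar N R) (fun φ => by
    rw [LinearMap.neg_apply, LinearMap.neg_apply, iotaPar_castPar, map_neg])

/-- The integral swap matrix. -/
theorem exists_swapMat :
    ∃ X : Matrix (Fin (rk (Gamma0 N))) (Fin (rk (Gamma0 N))) ℤ, X.det ≠ 0 ∧
      (∀ i, X * heckeMat N i = heckeMat N i * X) ∧ X * iotaMat N = negIotaMat N * X := by
  classical
  let bC := parBasis ℂ (fg_Gamma0 N)
  let X₀ : Matrix (Fin (rk (Gamma0 N))) (Fin (rk (Gamma0 N))) ℂ :=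
    LinearMap.toMatrix bC bC (swapC N : ↥(parabolicHoms ℂ (Gamma0 N) ℂ) →ₗ[ℂ] _)
  have hdet : X₀.det ≠ 0 := (LinearEquiv.isUnit_det (swapC N) bC bC).ne_zero
  let A : Option {l : ℕ // l.Prime ∧ ¬ l ∣ N} → Matrix (Fin (rk (Gamma0 N))) (Fin (rk (Gamma0 N))) ℤ :=
    fun o => o.elim (iotaMat N) (heckeMat N)
  let B : Option {l : ℕ // l.Prime ∧ ¬ l ∣ N} → Matrix (Fin (rk (Gamma0 N))) (Fin (rk (Gamma0 N))) ℤ :=
    fun o => o.elim (negIotaMat N) (heckeMat N)
  have hX₀ : ∀ o, X₀ * (A o).map (Int.cast : ℤ → ℂ) = (B o).map (Int.cast : ℤ → ℂ) * X₀ := by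
    intro o
    cases o with
    | none =>
      show X₀ * (iotaMat N).map (Int.cast : ℤ → ℂ) = (negIotaMat N).map (Int.cast : ℤ → ℂ) * X₀
      rw [← toMatrix_iotaPar N ℂ, ← toMatrix_neg_iotaPar N ℂ]
      show LinearMap.toMatrix bC bC (swapC N : ↥(parabolicHoms ℂ (Gamma0 N) ℂ) →ₗ[ℂ] _)
          * LinearMap.toMatrix bC bC (iotaPar N ℂ)
        = LinearMap.toMatrix bC bC (-iotaPar N ℂ)
          * LinearMap.toMatrix bC bC (swapC N : ↥(parabolicHoms ℂ (Gamma0 N) ℂ) →ₗ[ℂ] _)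
      rw [← LinearMap.toMatrix_comp bC bC bC, ← LinearMap.toMatrix_comp bC bC bC]
      congr 1
      refine LinearMap.ext fun φ => ?_
      rw [LinearMap.comp_apply, LinearMap.comp_apply, LinearMap.neg_apply]
      exact swapC_iotaPar N φ
    | some i =>
      obtain ⟨l, hl, hlN⟩ := i
      have : Fact l.Prime := ⟨hl⟩
      show X₀ * (heckeMat N ⟨l, hl, hlN⟩).map (Int.cast : ℤ → ℂ)
        = (heckeMat N ⟨l, hl, hlN⟩).map (Int.cast : ℤ → ℂ) * X₀
      rw [← toMatrix_tdcPar N ℂ hlN]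
      show LinearMap.toMatrix bC bC (swapC N : ↥(parabolicHoms ℂ (Gamma0 N) ℂ) →ₗ[ℂ] _)
          * LinearMap.toMatrix bC bC (tdcPar hlN ℂ ℂ)
        = LinearMap.toMatrix bC bC (tdcPar hlN ℂ ℂ)
          * LinearMap.toMatrix bC bC (swapC N : ↥(parabolicHoms ℂ (Gamma0 N) ℂ) →ₗ[ℂ] _)
      rw [← LinearMap.toMatrix_comp bC bC bC, ← LinearMap.toMatrix_comp bC bC bC]
      congr 1
      refine LinearMap.ext fun φ => ?_
      rw [LinearMap.comp_apply, LinearMap.comp_apply]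
      exact swapC_tdcPar hlN φ
  obtain ⟨X, hXdet, hX⟩ := ND.exists_int_intertwiner A B X₀ hdet hX₀
  exact ⟨X, hXdet, fun i => hX (some i), hX none⟩

end Descent

section Final

variable (N : ℕ) [NeZero N]

/-- **A3-SWAP over any characteristic-zero domain.** -/
theorem exists_swap_gen (R : Type*) [CommRing R] [IsDomain R] [CharZero R] :
    ∃ J : ↥(parabolicHoms R (Gamma0 N) R) →ₗ[R] ↥(parabolicHoms R (Gamma0 N) R),
      Function.Injective J ∧
      (∀ (l : ℕ) [Fact l.Prime] (hlN : ¬ l ∣ N) (φ : ↥(parabolicHoms R (Gamma0 N) R)),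
        J (tdcPar hlN R R φ) = tdcPar hlN R R (J φ)) ∧
      ∀ φ : ↥(parabolicHoms R (Gamma0 N) R), J (iotaPar N R φ) = - iotaPar N R (J φ) := by
  classical
  obtain ⟨X, hXdet, hXT, hXι⟩ := exists_swapMat N
  let b := parBasis R (fg_Gamma0 N)
  let XR : Matrix (Fin (rk (Gamma0 N))) (Fin (rk (Gamma0 N))) R := X.map (Int.castRingHom R)
  have hXR : XR = X.map (Int.cast : ℤ → R) := rfl
  have hdetR : XR.det ≠ 0 := by
    rw [hXR, ← Int.cast_det]
    exact Int.cast_ne_zero.2 hXdet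
  refine ⟨Matrix.toLin b b XR, ?_, ?_, ?_⟩
  · rw [← LinearMap.ker_eq_bot, LinearMap.ker_eq_bot']
    intro φ hφ
    have h1 : XR.mulVec (b.repr φ) = 0 := by
      funext j
      exact (Matrix.toLin_apply_eq_zero_iff.1 hφ) j
    have h2 := Matrix.eq_zero_of_mulVec_eq_zero hdetR h1
    have h3 : b.repr φ = 0 := by
      ext j
      rw [Finsupp.zero_apply]
      exact congrFun h2 j
    exact b.repr.map_eq_zero_iff.1 h3
  · intro l _ hlN φ
    have hcomm : (Matrix.toLin b b XR).comp (tdcPar hlN R R)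
        = (tdcPar hlN R R).comp (Matrix.toLin b b XR) := by
      apply (LinearMap.toMatrix b b).injective
      rw [LinearMap.toMatrix_comp b b b, LinearMap.toMatrix_comp b b b, LinearMap.toMatrix_toLin,
        toMatrix_tdcPar N R hlN]
      show X.map (Int.castRingHom R) * (heckeMat N ⟨l, Fact.out, hlN⟩).map (Int.castRingHom R)
        = (heckeMat N ⟨l, Fact.out, hlN⟩).map (Int.castRingHom R) * X.map (Int.castRingHom R)
      rw [← Matrix.map_mul, ← Matrix.map_mul, hXT]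
    exact LinearMap.congr_fun hcomm φ
  · intro φ
    have hcomm : (Matrix.toLin b b XR).comp (iotaPar N R)
        = (-iotaPar N R).comp (Matrix.toLin b b XR) := by
      apply (LinearMap.toMatrix b b).injective
      rw [LinearMap.toMatrix_comp b b b, LinearMap.toMatrix_comp b b b, LinearMap.toMatrix_toLin,
        toMatrix_iotaPar N R, toMatrix_neg_iotaPar N R]
      show X.map (Int.castRingHom R) * (iotaMat N).map (Int.castRingHom R)
        = (negIotaMat N).map (Int.castRingHom R) * X.map (Int.castRingHom R)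
      rw [← Matrix.map_mul, ← Matrix.map_mul, hXι]
    exact LinearMap.congr_fun hcomm φ

/-- **A3-SWAP** (row 716): an injective `ℤ_[r]`-linear operator on `P_{ℤ_[r]}` commuting with every
`T_l` (`l ∤ N`) and anticommuting with the involution `ι`. -/
theorem exists_swap (r : ℕ) [Fact r.Prime] :
    ∃ J : ↥(parabolicHoms ℤ_[r] (Gamma0 N) ℤ_[r]) →ₗ[ℤ_[r]] ↥(parabolicHoms ℤ_[r] (Gamma0 N) ℤ_[r]),
      Function.Injective J ∧
      (∀ (l : ℕ) [Fact l.Prime] (hlN : ¬ l ∣ N) (φ : ↥(parabolicHoms ℤ_[r] (Gamma0 N) ℤ_[r])),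
        J (tdcPar hlN ℤ_[r] ℤ_[r] φ) = tdcPar hlN ℤ_[r] ℤ_[r] (J φ)) ∧
      ∀ φ : ↥(parabolicHoms ℤ_[r] (Gamma0 N) ℤ_[r]),
        J (iotaPar N ℤ_[r] φ) = - iotaPar N ℤ_[r] (J φ) :=
  exists_swap_gen N ℤ_[r]

end Final

end Fermat.Agent.MAZ.A3Conj72
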